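import Mathlib

set_option autoImplicit false

namespace Fermat.Agent.S37.H159

open Module Matrix

attribute [local instance] Ideal.Quotient.field

/-- (E2, det-rank lemma) Let `ϖ` be a prime element of a domain `R` generating a maximal ideal `𝔪`.
If the reduction of a square matrix `H` modulo `𝔪` kills a subspace of dimension `≥ s`,
then `ϖ ^ s ∣ det H`. -/
theorem pow_dvd_det_of_le_finrank {R : Type*} [CommRing R] [IsDomain R] (𝔪 : Ideal R) [𝔪.IsMaximal]
    (ϖ : R) (hϖ : Prime ϖ) (h𝔪 : 𝔪 = Ideal.span {ϖ})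
    {ι : Type*} [Fintype ι] [DecidableEq ι] :
    ∀ (s : ℕ) (H : Matrix ι ι R) (V : Submodule (R ⧸ 𝔪) (ι → R ⧸ 𝔪)),
      (∀ v ∈ V, (H.map (Ideal.Quotient.mk 𝔪)) *ᵥ v = 0) → s ≤ finrank (R ⧸ 𝔪) V →
      ϖ ^ s ∣ H.det := by
  intro s
  induction s with
  | zero => intro H V _ _; simp
  | succ s ih =>
    intro H V hV hs
    -- pick a nonzero vector in V
    have hVne : V ≠ ⊥ := by
      intro h
      rw [h, finrank_bot] at hs
      omega
    obtain ⟨v, hvV, hv0⟩ := Submodule.exists_mem_ne_zero_of_ne_bot hVne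
    obtain ⟨j, hj⟩ : ∃ j, v j ≠ 0 := by
      by_contra hcon
      push Not at hcon
      exact hv0 (funext hcon)
    -- lift v
    choose vhat hvhat using fun i => Ideal.Quotient.mk_surjective (v i)
    have hvj : ¬ ϖ ∣ vhat j := by
      intro hdvd
      apply hj
      rw [← hvhat j, Ideal.Quotient.eq_zero_iff_mem, h𝔪, Ideal.mem_span_singleton]
      exact hdvd
    -- H *ᵥ vhat is divisible by ϖ
    have hdiv : ∀ i, ϖ ∣ (H *ᵥ vhat) i := by
      intro i
      have h0 := congrFun (hV v hvV) i
      rw [← Ideal.mem_span_singleton, ← h𝔪, ← Ideal.Quotient.eq_zero_iff_mem]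
      rw [Pi.zero_apply] at h0
      rw [← h0]
      simp only [Matrix.mulVec, dotProduct, Matrix.map_apply, map_sum, map_mul, hvhat]
    choose w hw using hdiv
    -- the key determinant identity
    have hdet : H.det * vhat j = ϖ * (H.updateCol j w).det := by
      have h1 : (H.updateCol j (H *ᵥ vhat)).det = H.det * vhat j := by
        rw [← Matrix.cramer_apply, Matrix.cramer_eq_adjugate_mulVec, Matrix.mulVec_mulVec,
          Matrix.adjugate_mul, Matrix.smul_mulVec, Matrix.one_mulVec, Pi.smul_apply, smul_eq_mul]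
      have h2 : H *ᵥ vhat = ϖ • w := by
        funext i
        rw [hw i, Pi.smul_apply, smul_eq_mul]
      rw [← h1, h2, Matrix.det_updateCol_smul]
    -- the new subspace
    let π : (ι → R ⧸ 𝔪) →ₗ[R ⧸ 𝔪] (R ⧸ 𝔪) := LinearMap.proj j
    let V' : Submodule (R ⧸ 𝔪) (ι → R ⧸ 𝔪) := V ⊓ LinearMap.ker π
    have hV' : ∀ u ∈ V', ((H.updateCol j w).map (Ideal.Quotient.mk 𝔪)) *ᵥ u = 0 := by
      intro u hu
      obtain ⟨huV, huj⟩ := hu
      have huj' : u j = 0 := huj
      rw [← hV u huV]
      funext i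
      simp only [Matrix.mulVec, dotProduct, Matrix.map_apply]
      refine Finset.sum_congr rfl fun l _ => ?_
      by_cases hl : l = j
      · subst hl; rw [huj', mul_zero, mul_zero]
      · rw [Matrix.updateCol_ne hl]
    have hdim : s ≤ finrank (R ⧸ 𝔪) V' := by
      -- V' is the kernel of π restricted to V
      let f : V →ₗ[R ⧸ 𝔪] (R ⧸ 𝔪) := π.comp V.subtype
      have hker : finrank (R ⧸ 𝔪) (LinearMap.ker f) ≤ finrank (R ⧸ 𝔪) V' := by
        let g : LinearMap.ker f →ₗ[R ⧸ 𝔪] V' :=
          { toFun := fun x => ⟨(x : V), ⟨(x : V).2, x.2⟩⟩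
            map_add' := fun _ _ => rfl
            map_smul' := fun _ _ => rfl }
        have hg : Function.Injective g := by
          intro x y hxy
          have := congrArg (fun z : V' => (z : ι → R ⧸ 𝔪)) hxy
          exact Subtype.ext (Subtype.ext this)
        exact LinearMap.finrank_le_finrank_of_injective hg
      have hrn := LinearMap.finrank_range_add_finrank_ker f
      have hr : finrank (R ⧸ 𝔪) (LinearMap.range f) ≤ 1 := by
        calc finrank (R ⧸ 𝔪) (LinearMap.range f) ≤ finrank (R ⧸ 𝔪) (R ⧸ 𝔪) :=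
              Submodule.finrank_le _
          _ = 1 := finrank_self _
      omega
    have hih := ih (H.updateCol j w) V' hV' hdim
    have h3 : ϖ ^ (s + 1) ∣ H.det * vhat j := by
      rw [hdet, pow_succ']
      exact mul_dvd_mul_left ϖ hih
    exact hϖ.pow_dvd_of_dvd_mul_right (s + 1) hvj h3

end Fermat.Agent.S37.H159
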