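import Mathlib

set_option autoImplicit false

namespace Fermat.Agent.S37.H159

open Module Matrix

/-- In an artinian commutative ring, every element `x` has a multiple `x * y` which is idempotent
and with `x ^ n * (x * y) = x ^ n` for some `n`. -/
theorem exists_idempotent_mul {F : Type*} [CommRing F] [IsArtinianRing F] (x : F) :
    ∃ (y : F) (n : ℕ), IsIdempotentElem (x * y) ∧ x ^ n * (x * y) = x ^ n := by
  obtain ⟨n, y, hy⟩ := IsArtinian.exists_pow_succ_smul_dvd x (1 : F)
  simp only [smul_eq_mul, mul_one] at hy
  -- hy : x ^ (n+1) * y = x ^ n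
  have h1 : x ^ n * (x * y) = x ^ n := by
    calc x ^ n * (x * y) = x ^ n.succ * y := by rw [Nat.succ_eq_add_one]; ring
      _ = x ^ n := hy
  have h2 : ∀ k : ℕ, x ^ n * (x * y) ^ k = x ^ n := by
    intro k
    induction k with
    | zero => simp
    | succ k ih => rw [pow_succ, ← mul_assoc, ih, h1]
  -- (x*y)^(n+1) = (x*y)^n
  have h3 : (x * y) ^ (n + 1) = (x * y) ^ n := by
    rw [pow_succ, mul_pow, mul_assoc, mul_comm (y ^ n), ← mul_assoc, h1]
  have h4 : ∀ k : ℕ, (x * y) ^ (n + k) = (x * y) ^ n := by
    intro k
    induction k with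
    | zero => simp
    | succ k ih => rw [← add_assoc, pow_succ, ih, ← pow_succ, h3]
  refine ⟨y * (x * y) ^ n, n, ?_, ?_⟩
  · have e : x * (y * (x * y) ^ n) = (x * y) ^ n := by
      rw [← mul_assoc, ← pow_succ', h3]
    rw [e]
    show (x * y) ^ n * (x * y) ^ n = (x * y) ^ n
    rw [← pow_add, h4]
  · have e : x * (y * (x * y) ^ n) = (x * y) ^ n := by
      rw [← mul_assoc, ← pow_succ', h3]
    rw [e, h2]

/-- (E1) Over a field of characteristic zero, the radical of the trace form of a finite-dimensional
commutative algebra consists of nilpotent elements. -/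
theorem isNilpotent_of_trace_mul_eq_zero {κ : Type*} [Field κ] [CharZero κ]
    {F : Type*} [CommRing F] [Algebra κ F] [Module.Finite κ F]
    (x : F) (hx : ∀ y : F, Algebra.trace κ F (x * y) = 0) : IsNilpotent x := by
  have : IsArtinianRing F := IsArtinianRing.of_finite κ F
  obtain ⟨y, n, hid, hn⟩ := exists_idempotent_mul x
  have htr : Algebra.trace κ F (x * y) = 0 := hx y
  have hid' : IsIdempotentElem (Algebra.lmul κ F (x * y)) := hid.map (Algebra.lmul κ F)
  rw [Algebra.trace_apply] at htr
  have h0 : Algebra.lmul κ F (x * y) = 0 := LinearMap.IsIdempotentElem.eq_zero_of_trace_eq_zero hid' htr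
  have h1 : x * y = 0 := by
    have := congrArg (fun f : F →ₗ[κ] F => f 1) h0
    simpa using this
  refine ⟨n, ?_⟩
  rw [← hn, h1, mul_zero]

/-- (E5) In characteristic zero the rank of the trace form of a finite-dimensional commutative
algebra is at least the dimension of its reduction. -/
theorem finrank_quotient_nilradical_le_rank_traceMatrix {κ : Type*} [Field κ] [CharZero κ]
    {F : Type*} [CommRing F] [Algebra κ F] [Module.Finite κ F]
    {ι : Type*} [Fintype ι] [DecidableEq ι] (c : Basis ι κ F) :
    finrank κ (F ⧸ nilradical F) ≤ (Algebra.traceMatrix κ c).rank := by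
  set G := Algebra.traceMatrix κ c with hG
  let N : Submodule κ F := (nilradical F).restrictScalars κ
  have h1 : finrank κ (F ⧸ N) + finrank κ N = finrank κ F := Submodule.finrank_quotient_add_finrank N
  have h2 : finrank κ (F ⧸ nilradical F) = finrank κ (F ⧸ N) :=
    (Submodule.Quotient.restrictScalarsEquiv κ (nilradical F)).finrank_eq.symm
  have h3 : G.rank + finrank κ (LinearMap.ker G.mulVecLin) = Fintype.card ι := by
    have := LinearMap.finrank_range_add_finrank_ker G.mulVecLin
    rw [Module.finrank_pi, ] at this
    exact this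
  have h5 : finrank κ F = Fintype.card ι := finrank_eq_card_basis c
  have h4 : finrank κ (LinearMap.ker G.mulVecLin) ≤ finrank κ N := by
    have hmem : ∀ v : ι → κ, v ∈ LinearMap.ker G.mulVecLin → c.equivFun.symm v ∈ N := by
      intro v hv
      show c.equivFun.symm v ∈ nilradical F
      rw [mem_nilradical]
      apply isNilpotent_of_trace_mul_eq_zero (κ := κ)
      intro y
      have hv' : G *ᵥ v = 0 := hv
      have hx : c.equivFun.symm v = ∑ j, v j • c j := c.equivFun_symm_apply v
      have hi : ∀ i, Algebra.trace κ F (c.equivFun.symm v * c i) = 0 := by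
        intro i
        have := congrFun hv' i
        rw [Pi.zero_apply] at this
        rw [← this, hx, Finset.sum_mul, map_sum]
        simp only [Matrix.mulVec, dotProduct, hG, Algebra.traceMatrix_apply, Algebra.traceForm_apply]
        refine Finset.sum_congr rfl fun j _ => ?_
        rw [smul_mul_assoc, map_smul, smul_eq_mul, mul_comm (c j) (c i), mul_comm]
      rw [← c.sum_repr y, Finset.mul_sum, map_sum]
      refine Finset.sum_eq_zero fun i _ => ?_
      rw [mul_smul_comm, map_smul, hi i, smul_zero]
    let g : LinearMap.ker G.mulVecLin →ₗ[κ] N :=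
      { toFun := fun v => ⟨c.equivFun.symm v, hmem v v.2⟩
        map_add' := fun v w => Subtype.ext (map_add c.equivFun.symm (v : ι → κ) w)
        map_smul' := fun a v => Subtype.ext (map_smul c.equivFun.symm a (v : ι → κ)) }
    have hg : Function.Injective g := by
      intro v w hvw
      have h := congrArg (fun z : N => (z : F)) hvw
      exact Subtype.ext (c.equivFun.symm.injective h)
    exact LinearMap.finrank_le_finrank_of_injective hg
  omega

end Fermat.Agent.S37.H159
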