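import Mathlib
import Fermat.Agent.S37.H159.TraceNil
import Fermat.Agent.S37.H159.DetRank

set_option autoImplicit false

namespace Fermat.Agent.S37.H159

open Module IsLocalRing Matrix

attribute [local instance] Ideal.Quotient.field
attribute [local instance] FractionRing.liftAlgebra FractionRing.isScalarTower_liftAlgebra

section
variable {R : Type*} [CommRing R] [IsDomain R] [IsDiscreteValuationRing R]
variable {T : Type*} [CommRing T] [IsDomain T] [Algebra R T]
  [Module.Free R T] [Module.Finite R T]

theorem charZero_of_residue [CharZero (R ⧸ maximalIdeal R)] : CharZero R :=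
  RingHom.charZero (Ideal.Quotient.mk (maximalIdeal R))

theorem isSeparable_frac [CharZero (R ⧸ maximalIdeal R)] :
    Algebra.IsSeparable (FractionRing R) (FractionRing T) := by
  have : CharZero R := charZero_of_residue
  infer_instance

theorem isDedekindDomain_of_finite [IsIntegrallyClosed T] [CharZero (R ⧸ maximalIdeal R)] :
    IsDedekindDomain T := by
  have : Algebra.IsSeparable (FractionRing R) (FractionRing T) := isSeparable_frac
  exact IsIntegralClosure.isDedekindDomain R (FractionRing R) (FractionRing T) T

/-- (E3a) If `Tr(u s) ∈ 𝔪` for all `s`, then `u` is nilpotent modulo `𝔪 T` (residue char. 0). -/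
theorem mem_radical_of_trace_mem [CharZero (R ⧸ maximalIdeal R)] (u : T)
    (hu : ∀ s : T, Algebra.trace R T (u * s) ∈ maximalIdeal R) :
    u ∈ ((maximalIdeal R).map (algebraMap R T)).radical := by
  have hfin : Module.Finite (R ⧸ maximalIdeal R) (T ⧸ (maximalIdeal R).map (algebraMap R T)) :=
    Module.Finite.of_restrictScalars_finite R _ _
  have hnil : IsNilpotent (Ideal.Quotient.mk ((maximalIdeal R).map (algebraMap R T)) u) := by
    apply isNilpotent_of_trace_mul_eq_zero (κ := R ⧸ maximalIdeal R)
    intro y
    obtain ⟨s, rfl⟩ := Ideal.Quotient.mk_surjective y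
    rw [← map_mul, Algebra.trace_quotient_mk, Ideal.Quotient.eq_zero_iff_mem]
    exact hu s
  obtain ⟨n, hn⟩ := hnil
  refine ⟨n, ?_⟩
  rw [← Ideal.Quotient.eq_zero_iff_mem, map_pow]
  exact hn

/-- (E3b) Integrality of `ϖ · (trace dual)`: if `Tr(y s) ∈ R` for all `s ∈ T`, then `ϖ y ∈ T`.
Here `T` is integrally closed and the residue characteristic is zero (tameness). -/
theorem exists_eq_mul_of_trace_mem [IsIntegrallyClosed T] [CharZero (R ⧸ maximalIdeal R)]
    (ϖ : R) (hϖ : ϖ ∈ maximalIdeal R)
    (y : FractionRing T)
    (hy : ∀ s : T, ∃ r : R, Algebra.trace (FractionRing R) (FractionRing T)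
      (y * algebraMap T (FractionRing T) s) = algebraMap R (FractionRing R) r) :
    ∃ t : T, algebraMap T (FractionRing T) t = algebraMap R (FractionRing T) ϖ * y := by
  classical
  have hDed : IsDedekindDomain T := isDedekindDomain_of_finite (R := R)
  by_contra hcon
  -- the denominator ideal of `z = ϖ y`
  let D : Ideal T :=
    { carrier := {c | ∃ u : T, algebraMap T (FractionRing T) u =
        algebraMap T (FractionRing T) c * (algebraMap R (FractionRing T) ϖ * y)}
      add_mem' := by
        rintro a b ⟨u, hu⟩ ⟨v, hv⟩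
        exact ⟨u + v, by rw [map_add, map_add, hu, hv, add_mul]⟩
      zero_mem' := ⟨0, by simp⟩
      smul_mem' := by
        rintro c a ⟨u, hu⟩
        exact ⟨c * u, by rw [smul_eq_mul, map_mul, map_mul, hu, mul_assoc]⟩ }
  have hD1 : D ≠ ⊤ := by
    intro h
    have h1 : (1 : T) ∈ D := by rw [h]; trivial
    obtain ⟨u, hu⟩ := h1
    exact hcon ⟨u, by rw [hu, map_one, one_mul]⟩
  obtain ⟨P, hPmax, hDP⟩ := Ideal.exists_le_maximal D hD1
  have hpP : (maximalIdeal R).map (algebraMap R T) ≤ P := by
    rw [Ideal.map_le_iff_le_comap]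
    have hmax : (P.comap (algebraMap R T)).IsMaximal :=
      Ideal.isMaximal_comap_of_isIntegral_of_isMaximal P
    rw [IsLocalRing.eq_maximalIdeal hmax]
  -- witnesses lie in `P`
  have hwit : ∀ c u : T, algebraMap T (FractionRing T) u =
      algebraMap T (FractionRing T) c * (algebraMap R (FractionRing T) ϖ * y) → u ∈ P := by
    intro c u hcu
    have hrad : u ∈ ((maximalIdeal R).map (algebraMap R T)).radical := by
      apply mem_radical_of_trace_mem
      intro s
      obtain ⟨r, hr⟩ := hy (c * s)
      have h1 : algebraMap R (FractionRing R) (Algebra.trace R T (u * s)) =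
          algebraMap R (FractionRing R) (ϖ * r) := by
        rw [← Algebra.trace_localization R (nonZeroDivisors R) (Sₘ := FractionRing T),
          map_mul (algebraMap T (FractionRing T)), hcu, map_mul (algebraMap R (FractionRing R)),
          ← hr]
        have e : algebraMap T (FractionRing T) c * (algebraMap R (FractionRing T) ϖ * y) *
            algebraMap T (FractionRing T) s =
            (algebraMap R (FractionRing R) ϖ) •
              (y * algebraMap T (FractionRing T) (c * s)) := by
          rw [Algebra.smul_def, ← IsScalarTower.algebraMap_apply, map_mul]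
          ring
        rw [e, map_smul, smul_eq_mul]
      have h2 := IsFractionRing.injective R (FractionRing R) h1
      rw [h2]
      exact Ideal.mul_mem_right _ _ hϖ
    exact (hPmax.isPrime.radical_le_iff.mpr hpP) hrad
  -- the fractional ideal `T + z T`
  set z : FractionRing T := algebraMap R (FractionRing T) ϖ * y with hz
  let I : FractionalIdeal (nonZeroDivisors T) (FractionRing T) :=
    1 + FractionalIdeal.spanSingleton _ z
  have h1I : (1 : FractionRing T) ∈ I :=
    (FractionalIdeal.mem_add _ _ _).mpr
      ⟨1, FractionalIdeal.one_mem_one _, 0, FractionalIdeal.zero_mem _, add_zero 1⟩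
  have hzI : z ∈ I :=
    (FractionalIdeal.mem_add _ _ _).mpr
      ⟨0, FractionalIdeal.zero_mem _, z, FractionalIdeal.mem_spanSingleton_self _ z, zero_add z⟩
  have hI : I ≠ 0 := by
    intro h
    rw [h, FractionalIdeal.mem_zero_iff] at h1I
    exact one_ne_zero h1I
  have h1 : (1 : FractionRing T) ∈ I * I⁻¹ := by
    rw [mul_inv_cancel₀ hI]; exact FractionalIdeal.one_mem_one _
  have hall : ∀ x ∈ I * I⁻¹,
      x ∈ (P : FractionalIdeal (nonZeroDivisors T) (FractionRing T)) := by
    intro x hx
    refine FractionalIdeal.mul_induction_on hx ?_ ?_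
    · intro a ha c hc
      rw [FractionalIdeal.mem_inv_iff hI] at hc
      have hc1 : c ∈ (1 : FractionalIdeal (nonZeroDivisors T) (FractionRing T)) := by
        have := hc 1 h1I
        rwa [mul_one] at this
      obtain ⟨c₀, hc₀⟩ := (FractionalIdeal.mem_one_iff (nonZeroDivisors T)).mp hc1
      obtain ⟨u, hu⟩ := (FractionalIdeal.mem_one_iff (nonZeroDivisors T)).mp (hc z hzI)
      obtain ⟨i, hi, j, hj, rfl⟩ := (FractionalIdeal.mem_add _ _ _).mp ha
      obtain ⟨t, rfl⟩ := (FractionalIdeal.mem_one_iff (nonZeroDivisors T)).mp hi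
      obtain ⟨s, rfl⟩ := (FractionalIdeal.mem_spanSingleton (nonZeroDivisors T)).mp hj
      rw [FractionalIdeal.mem_coeIdeal]
      have hc₀D : c₀ ∈ D := ⟨u, by rw [hu, hc₀]⟩
      refine ⟨t * c₀ + s * u, ?_, ?_⟩
      · exact P.add_mem (P.mul_mem_left _ (hDP hc₀D))
          (P.mul_mem_left _ (hwit c₀ u (by rw [hu, hc₀])))
      · rw [map_add, map_mul, map_mul, hc₀, hu, Algebra.smul_def]; ring
    · intro x y hx hy
      exact Submodule.add_mem
        ((P : FractionalIdeal (nonZeroDivisors T) (FractionRing T)) :
          Submodule T (FractionRing T)) hx hy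
  obtain ⟨x', hx'P, hx'⟩ := (FractionalIdeal.mem_coeIdeal _).mp (hall 1 h1)
  have hx1 : x' = 1 := IsFractionRing.injective T (FractionRing T) (by rw [hx', map_one])
  exact hPmax.ne_top ((Ideal.eq_top_iff_one _).mpr (hx1 ▸ hx'P))

/-- (T) TAME DISCRIMINANT BOUND.  `R` a DVR with residue characteristic zero, `T` an integrally
closed domain, finite free over `R` with basis `b`.  Then
`v(disc b) + dim_κ (T/𝔪T)_red ≤ rank`. -/
theorem addVal_discr_add_finrank_le [IsIntegrallyClosed T] [CharZero (R ⧸ maximalIdeal R)]
    {ι : Type*} [Fintype ι] [DecidableEq ι] (b : Basis ι R T) :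
    IsDiscreteValuationRing.addVal R (Algebra.discr R b) +
      (finrank (R ⧸ maximalIdeal R)
        ((T ⧸ (maximalIdeal R).map (algebraMap R T)) ⧸
          nilradical (T ⧸ (maximalIdeal R).map (algebraMap R T))) : ℕ∞) ≤
    (Fintype.card ι : ℕ∞) := by
  classical
  obtain ⟨ϖ, hϖ⟩ := IsDiscreteValuationRing.exists_irreducible R
  have hmax : maximalIdeal R = Ideal.span {ϖ} := hϖ.maximalIdeal_eq
  have hϖmem : ϖ ∈ maximalIdeal R := by rw [hmax]; exact Ideal.mem_span_singleton_self ϖ
  have hsep : Algebra.IsSeparable (FractionRing R) (FractionRing T) := isSeparable_frac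
  let bL : Basis ι (FractionRing R) (FractionRing T) :=
    b.localizationLocalization (FractionRing R) (nonZeroDivisors R) (FractionRing T)
  have hbL : ∀ i, bL i = algebraMap T (FractionRing T) (b i) := fun i =>
    Basis.localizationLocalization_apply _ _ _ b i
  have hB : (Algebra.traceForm (FractionRing R) (FractionRing T)).Nondegenerate :=
    traceForm_nondegenerate _ _
  let d := (Algebra.traceForm (FractionRing R) (FractionRing T)).dualBasis hB bL
  have hd : ∀ i j, Algebra.trace (FractionRing R) (FractionRing T) (d i * bL j) =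
      if j = i then 1 else 0 := fun i j => by
    rw [← Algebra.traceForm_apply]
    exact LinearMap.BilinForm.apply_dualBasis_left hB bL i j
  have hs : ∀ s : T, algebraMap T (FractionRing T) s =
      ∑ j, algebraMap R (FractionRing R) (b.repr s j) • bL j := by
    intro s
    conv_lhs => rw [← b.sum_repr s]
    rw [map_sum]
    refine Finset.sum_congr rfl fun j _ => ?_
    rw [hbL, Algebra.smul_def, Algebra.smul_def, map_mul, ← IsScalarTower.algebraMap_apply,
      ← IsScalarTower.algebraMap_apply]
  -- integrality of `ϖ •` dual basis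
  have hint : ∀ i, ∃ t : T, algebraMap T (FractionRing T) t =
      algebraMap R (FractionRing T) ϖ * d i := by
    intro i
    apply exists_eq_mul_of_trace_mem ϖ hϖmem
    intro s
    refine ⟨b.repr s i, ?_⟩
    rw [hs s, Finset.mul_sum, map_sum]
    simp only [mul_smul_comm, map_smul, hd, smul_eq_mul, mul_ite, mul_one, mul_zero]
    rw [Finset.sum_ite_eq' Finset.univ i, if_pos (Finset.mem_univ i)]
  choose t ht using hint
  let H : Matrix ι ι R := fun i j => b.repr (t i) j
  have hHG : H * Algebra.traceMatrix R b = ϖ • (1 : Matrix ι ι R) := by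
    ext i k
    apply IsFractionRing.injective R (FractionRing R)
    have e1 : (H * Algebra.traceMatrix R b) i k = Algebra.trace R T (t i * b k) := by
      rw [Matrix.mul_apply]
      conv_rhs => rw [← b.sum_repr (t i), Finset.sum_mul, map_sum]
      refine Finset.sum_congr rfl fun j _ => ?_
      rw [Algebra.traceMatrix_apply, Algebra.traceForm_apply, smul_mul_assoc, map_smul,
        smul_eq_mul]
    rw [e1, ← Algebra.trace_localization R (nonZeroDivisors R) (Sₘ := FractionRing T),
      map_mul (algebraMap T (FractionRing T)), ht, ← hbL]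
    have e2 : algebraMap R (FractionRing T) ϖ * d i * bL k =
        (algebraMap R (FractionRing R) ϖ) • (d i * bL k) := by
      rw [Algebra.smul_def, ← IsScalarTower.algebraMap_apply, mul_assoc]
    rw [e2, map_smul, hd, Matrix.smul_apply, Matrix.one_apply, smul_eq_mul, smul_eq_mul, map_mul]
    by_cases hik : i = k
    · subst hik; simp
    · rw [if_neg (Ne.symm hik), if_neg hik]; simp
  -- determinants
  have hdet : H.det * Algebra.discr R b = ϖ ^ Fintype.card ι := by
    rw [Algebra.discr_def, ← Matrix.det_mul, hHG, Matrix.det_smul, Matrix.det_one, mul_one]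
  -- reduction modulo the maximal ideal
  have hGbar : (Algebra.traceMatrix R b).map (Ideal.Quotient.mk (maximalIdeal R)) =
      Algebra.traceMatrix (R ⧸ maximalIdeal R) (basisQuotient b) := by
    ext i j
    rw [Matrix.map_apply, Algebra.traceMatrix_apply, Algebra.traceMatrix_apply,
      Algebra.traceForm_apply, Algebra.traceForm_apply, basisQuotient_apply, basisQuotient_apply,
      ← map_mul (Ideal.Quotient.mk ((maximalIdeal R).map (algebraMap R T))),
      Algebra.trace_quotient_mk]
  have hfin : Module.Finite (R ⧸ maximalIdeal R) (T ⧸ (maximalIdeal R).map (algebraMap R T)) :=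
    Module.Finite.of_restrictScalars_finite R _ _
  have hrank : finrank (R ⧸ maximalIdeal R)
        ((T ⧸ (maximalIdeal R).map (algebraMap R T)) ⧸
          nilradical (T ⧸ (maximalIdeal R).map (algebraMap R T))) ≤
      ((Algebra.traceMatrix R b).map (Ideal.Quotient.mk (maximalIdeal R))).rank := by
    rw [hGbar]
    exact finrank_quotient_nilradical_le_rank_traceMatrix _
  have hkill : ∀ v ∈ LinearMap.range
      ((Algebra.traceMatrix R b).map (Ideal.Quotient.mk (maximalIdeal R))).mulVecLin,
      (H.map (Ideal.Quotient.mk (maximalIdeal R))) *ᵥ v = 0 := by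
    rintro _ ⟨w, rfl⟩
    rw [Matrix.mulVecLin_apply, Matrix.mulVec_mulVec, ← Matrix.map_mul, hHG]
    have h0 : (ϖ • (1 : Matrix ι ι R)).map (Ideal.Quotient.mk (maximalIdeal R)) = 0 := by
      ext i j
      rw [Matrix.map_apply, Matrix.smul_apply, smul_eq_mul, map_mul,
        Ideal.Quotient.eq_zero_iff_mem.mpr hϖmem, zero_mul, Matrix.zero_apply]
    rw [h0, Matrix.zero_mulVec]
  have hdvd : ϖ ^ ((Algebra.traceMatrix R b).map (Ideal.Quotient.mk (maximalIdeal R))).rank ∣
      H.det :=
    pow_dvd_det_of_le_finrank (maximalIdeal R) ϖ hϖ.prime hmax _ H _ hkill le_rfl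
  -- valuations
  have hv1 : IsDiscreteValuationRing.addVal R H.det +
      IsDiscreteValuationRing.addVal R (Algebra.discr R b) = (Fintype.card ι : ℕ∞) := by
    rw [← AddValuation.map_mul, hdet, AddValuation.map_pow,
      IsDiscreteValuationRing.addVal_uniformizer hϖ, nsmul_one]
  have hv2 : ((((Algebra.traceMatrix R b).map (Ideal.Quotient.mk (maximalIdeal R))).rank : ℕ) : ℕ∞)
      ≤ IsDiscreteValuationRing.addVal R H.det := by
    have h := IsDiscreteValuationRing.addVal_le_iff_dvd.mpr hdvd
    rwa [AddValuation.map_pow, IsDiscreteValuationRing.addVal_uniformizer hϖ, nsmul_one] at h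
  calc IsDiscreteValuationRing.addVal R (Algebra.discr R b) +
        (finrank (R ⧸ maximalIdeal R)
          ((T ⧸ (maximalIdeal R).map (algebraMap R T)) ⧸
            nilradical (T ⧸ (maximalIdeal R).map (algebraMap R T))) : ℕ∞)
      ≤ IsDiscreteValuationRing.addVal R (Algebra.discr R b) +
        ((((Algebra.traceMatrix R b).map (Ideal.Quotient.mk (maximalIdeal R))).rank : ℕ) : ℕ∞) := by
        gcongr
    _ ≤ IsDiscreteValuationRing.addVal R (Algebra.discr R b) +
        IsDiscreteValuationRing.addVal R H.det := by gcongr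
    _ = (Fintype.card ι : ℕ∞) := by rw [add_comm]; exact hv1

end

end Fermat.Agent.S37.H159
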